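import Fermat.Agent.Ribet.H375.ELOCOrdSpec
import Fermat.Agent.Ribet.H403.DetFrey
import Fermat.Agent.Lib.Red.H290.RedHom
import Fermat.Agent.S05.Sq12.Inertia

/-!
# Row 38, WALL-p, leaf ELOC-ord / LINE (helper237)

`elocLine : H375.ELOCLineStatement` (verbatim, unconditional).

`W` an integral Weierstrass curve with good reduction at the odd prime `p`, `E[p]` irreducible,
`A` a valuation ring of `ℚ̄` over `p`, `I` its inertia group, `E₁` the kernel of reduction at `A`.
If `E[p] ⊄ E₁` then `E₁[p] = ⟨t⟩` is a line, `σ x - x ∈ ⟨t⟩` for `σ ∈ I`, and `σ t = χ(σ) t`.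

Proof.  `red : E(ℚ̄) → Ẽ(κ_A)` is a homomorphism with kernel `E₁` (`Lib/Red/H290`), and
`red (σ P) = red P` for `σ ∈ I` (`red_smul_of_mem_inertia`); so `N := E₁[p]` is a subspace of the
plane `E[p]` with `σ x - x ∈ N`.  `N ≠ ⊤` by hypothesis.  `N ≠ ⊥`: otherwise `I` acts trivially
on `E[p]`, so `χ = det` (`H403.det_eq_cycloPow`) is trivial on `I`, against
`H403.exists_inertia_cycloPow_ne_one`.  So `N = ⟨t⟩`; `σ t = a t` and `σ = 1` modulo `N` give
`det σ = a` (`det_eq_of_line`), i.e. `a = χ(σ)`.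
-/

set_option autoImplicit false
set_option linter.style.haveILetI false

open WeierstrassCurve WeierstrassCurve.Affine WeierstrassCurve.Affine.Point

namespace Fermat.Agent.Ribet.H237

open Fermat.Agent.S05.SameRed (InKer IntegralCoeffs)
open Fermat.Agent.Lib.Red.H290
open Fermat.Agent.Ribet.H944.Wall Fermat.Agent.Ribet.H375

/-! ## Linear algebra in a plane -/

section LinAlg

variable {k V : Type*} [Field k] [AddCommGroup V] [Module k V] [Module.Finite k V]

/-- A proper nonzero subspace of a plane is a line. -/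
theorem exists_generator_of_ne_bot_of_ne_top (h2 : Module.finrank k V = 2) (N : Submodule k V)
    (hbot : N ≠ ⊥) (htop : N ≠ ⊤) : ∃ t ∈ N, t ≠ 0 ∧ ∀ x ∈ N, ∃ c : k, x = c • t := by
  obtain ⟨t, htN, ht0⟩ := (Submodule.ne_bot_iff N).1 hbot
  refine ⟨t, htN, ht0, ?_⟩
  have hlt : Module.finrank k N < 2 := by
    rw [← h2]
    exact Submodule.finrank_lt htop
  have hpos : 0 < Module.finrank k N := by
    rw [Module.finrank_pos_iff_exists_ne_zero]
    exact ⟨⟨t, htN⟩, fun h => ht0 (congrArg Subtype.val h)⟩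
  have h1 : Module.finrank k N = 1 := by omega
  have ht0' : (⟨t, htN⟩ : N) ≠ 0 := fun h => ht0 (congrArg Subtype.val h)
  have hgen := (finrank_eq_one_iff_of_nonzero' (⟨t, htN⟩ : N) ht0').1 h1
  intro x hx
  obtain ⟨c, hc⟩ := hgen ⟨x, hx⟩
  exact ⟨c, (congrArg Subtype.val hc).symm⟩

/-- The determinant of an endomorphism of a plane which multiplies a line `N = ⟨t⟩` by `a` and is
trivial modulo `N`. -/
theorem det_eq_of_line (h2 : Module.finrank k V = 2) (f : Module.End k V) (N : Submodule k V)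
    (t : V) (ht0 : t ≠ 0) (hN : ∀ x ∈ N, ∃ c : k, x = c • t) (a : k)
    (hft : f t = a • t) (hf : ∀ x, f x - x ∈ N) (x₀ : V) (hx₀ : x₀ ∉ N) :
    LinearMap.det f = a := by
  have hrel : ∀ x, f (f x) - (a + 1) • f x + a • x = 0 := by
    intro x
    obtain ⟨m, hm⟩ := hN _ (hf x)
    have hfx : f x = x + m • t := by rw [← hm]; abel
    rw [hfx, map_add, map_smul, hft, hfx]
    module
  by_cases hs : ∃ s : k, ∀ x, f x = s • x
  · obtain ⟨s, hs⟩ := hs
    have hs1 : s = 1 := by
      by_contra hne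
      have hne' : s - 1 ≠ 0 := sub_ne_zero.2 hne
      apply hx₀
      have h1 : (s - 1) • x₀ ∈ N := by
        have := hf x₀
        rwa [hs x₀, ← one_smul k x₀, smul_smul, mul_one, ← sub_smul] at this
      have h2' : x₀ = (s - 1)⁻¹ • ((s - 1) • x₀) := by
        rw [smul_smul, inv_mul_cancel₀ hne', one_smul]
      rw [h2']
      exact N.smul_mem _ h1
    have ha : a = 1 := by
      have h1 : a • t = (1 : k) • t := by rw [← hft, hs t, hs1]
      have h3 : (a - 1) • t = 0 := by rw [sub_smul, h1, sub_self]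
      rcases smul_eq_zero.1 h3 with h | h
      · exact sub_eq_zero.1 h
      · exact absurd h ht0
    have hfid : f = LinearMap.id := by
      apply LinearMap.ext
      intro x
      rw [hs x, hs1, one_smul, LinearMap.id_apply]
    rw [hfid, LinearMap.det_id, ha]
  · exact Fermat.Agent.Ribet.H403.det_eq_of_quadratic_of_not_scalar h2 f (a + 1) a hrel hs

end LinAlg


/-! ## Reduction at `A` and inertia -/

/-- `ℚ̄`. -/
abbrev QbL : Type := AlgebraicClosure ℚ

/-- `Gal(ℚ̄/ℚ)`. -/
abbrev GQL : Type := QbL ≃ₐ[ℚ] QbL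

section Red

variable (W : WeierstrassCurve ℤ) (A : ValuationSubring QbL)

/-- The curve `W` over `ℚ̄`. -/
noncomputable abbrev EK : Affine QbL := (W.map (Int.castRingHom ℚ))⁄QbL

/-- The reduction of `W` modulo the maximal ideal of `A`. -/
noncomputable abbrev Wred : Affine (IsLocalRing.ResidueField A) :=
  (W.map (Int.castRingHom (IsLocalRing.ResidueField A))).toAffine

lemma coeff_eq (n : ℤ) : algebraMap ℚ QbL ((Int.castRingHom ℚ) n) = (n : QbL) := by
  simp

lemma rd_intCast (n : ℤ) :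
    rd A (IsLocalRing.residue A) (n : QbL) = (n : IsLocalRing.ResidueField A) := by
  rw [rd_of_mem (intCast_mem A n)]
  have : (⟨(n : QbL), intCast_mem A n⟩ : A) = (n : A) := rfl
  rw [this, map_intCast]

lemma isRedOf_W : IsRedOf A (IsLocalRing.residue A) (EK W) (Wred W A) where
  m₁ := by
    show algebraMap ℚ QbL ((Int.castRingHom ℚ) W.a₁) ∈ A
    rw [coeff_eq]; exact intCast_mem A _
  m₂ := by
    show algebraMap ℚ QbL ((Int.castRingHom ℚ) W.a₂) ∈ A
    rw [coeff_eq]; exact intCast_mem A _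
  m₃ := by
    show algebraMap ℚ QbL ((Int.castRingHom ℚ) W.a₃) ∈ A
    rw [coeff_eq]; exact intCast_mem A _
  m₄ := by
    show algebraMap ℚ QbL ((Int.castRingHom ℚ) W.a₄) ∈ A
    rw [coeff_eq]; exact intCast_mem A _
  m₆ := by
    show algebraMap ℚ QbL ((Int.castRingHom ℚ) W.a₆) ∈ A
    rw [coeff_eq]; exact intCast_mem A _
  a₁ := by
    show rd A _ (algebraMap ℚ QbL ((Int.castRingHom ℚ) W.a₁)) = (Int.castRingHom _) W.a₁
    rw [coeff_eq, rd_intCast]; rfl
  a₂ := by
    show rd A _ (algebraMap ℚ QbL ((Int.castRingHom ℚ) W.a₂)) = (Int.castRingHom _) W.a₂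
    rw [coeff_eq, rd_intCast]; rfl
  a₃ := by
    show rd A _ (algebraMap ℚ QbL ((Int.castRingHom ℚ) W.a₃)) = (Int.castRingHom _) W.a₃
    rw [coeff_eq, rd_intCast]; rfl
  a₄ := by
    show rd A _ (algebraMap ℚ QbL ((Int.castRingHom ℚ) W.a₄)) = (Int.castRingHom _) W.a₄
    rw [coeff_eq, rd_intCast]; rfl
  a₆ := by
    show rd A _ (algebraMap ℚ QbL ((Int.castRingHom ℚ) W.a₆)) = (Int.castRingHom _) W.a₆
    rw [coeff_eq, rd_intCast]; rfl

lemma Wred_Δ_ne_zero {p : ℕ} (hp : p.Prime) (hgood : W.IsGoodPrimeFor p)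
    (hA : A.LiesOverPrime p) : (Wred W A).Δ ≠ 0 := by
  have h1 : (Wred W A).Δ = (Int.castRingHom (IsLocalRing.ResidueField A)) W.Δ :=
    WeierstrassCurve.map_Δ ..
  rw [h1]
  have hv : A.valuation ((W.Δ : ℤ) : QbL) = 1 :=
    Fermat.Agent.S05.Sq12.valuation_intCast_eq_one_of_not_dvd A hp hA hgood
  have h2 : rd A (IsLocalRing.residue A) ((W.Δ : ℤ) : QbL) ≠ 0 :=
    (rd_ne_zero_iff (kerMax_residue A) (intCast_mem A _)).2 hv
  rw [rd_intCast] at h2
  exact h2

variable {W A}

/-- Inertia acts trivially on reductions. -/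
theorem red_smul_of_mem_inertia [DecidableEq (IsLocalRing.ResidueField A)]
    (hΔ : (Wred W A).Δ ≠ 0) {σ : GQL}
    (hσ : σ ∈ A.inertiaSubgroupIn ℚ) (P : (EK W).Point) :
    red (isRedOf_W W A) hΔ (σ • P) = red (isRedOf_W W A) hΔ P := by
  rcases P with _ | ⟨x, y, h⟩
  · rfl
  · change red (isRedOf_W W A) hΔ (Point.map σ.toAlgHom (Point.some x y h)) = _
    rw [Point.map_some]
    simp only [AlgEquiv.coe_toAlgHom]
    by_cases hx : x ∈ A
    · have hσx : σ x ∈ A := by
        rw [← A.valuation_le_one_iff,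
          Fermat.Agent.S05.Sq12.valuation_apply_eq_of_mem_inertiaIn A hσ x,
          A.valuation_le_one_iff]
        exact hx
      have hy : y ∈ A := y_mem_of_x_mem (isRedOf_W W A) h.1 hx
      have hσy : σ y ∈ A := by
        rw [← A.valuation_le_one_iff,
          Fermat.Agent.S05.Sq12.valuation_apply_eq_of_mem_inertiaIn A hσ y,
          A.valuation_le_one_iff]
        exact hy
      rw [red_some_of_mem (isRedOf_W W A) hΔ _ hσx, red_some_of_mem (isRedOf_W W A) hΔ h hx]
      simp only [Point.some.injEq]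
      refine ⟨?_, ?_⟩
      · exact (rd_eq_iff (kerMax_residue A) hσx hx).2
          (Fermat.Agent.S05.Sq12.valuation_sub_lt_one_of_mem_inertiaIn A hσ
            ((A.valuation_le_one_iff x).2 hx))
      · exact (rd_eq_iff (kerMax_residue A) hσy hy).2
          (Fermat.Agent.S05.Sq12.valuation_sub_lt_one_of_mem_inertiaIn A hσ
            ((A.valuation_le_one_iff y).2 hy))
    · have hσx : σ x ∉ A := by
        rw [← A.valuation_le_one_iff,
          Fermat.Agent.S05.Sq12.valuation_apply_eq_of_mem_inertiaIn A hσ x,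
          A.valuation_le_one_iff]
        exact hx
      rw [red_some_of_not_mem (isRedOf_W W A) hΔ _ hσx,
        red_some_of_not_mem (isRedOf_W W A) hΔ h hx]

end Red


/-! ## The line -/

section Line

variable (W : WeierstrassCurve ℤ) (p : ℕ) (A : ValuationSubring QbL)

/-- Reduction restricted to `E[p]`. -/
noncomputable def redTors [DecidableEq (IsLocalRing.ResidueField A)]
    (hΔ : (Wred W A).Δ ≠ 0) :
    ETorsion (W.map (Int.castRingHom ℚ)) p →+ (Wred W A).Point :=
  (redHom (isRedOf_W W A) (kerMax_residue A) hΔ).comp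
    (Submodule.torsionBy ℤ (EK W).Point p).subtype.toAddMonoidHom

variable {W p A}

lemma redTors_apply [DecidableEq (IsLocalRing.ResidueField A)] (hΔ : (Wred W A).Δ ≠ 0)
    (x : ETorsion (W.map (Int.castRingHom ℚ)) p) :
    redTors W p A hΔ x = red (isRedOf_W W A) hΔ (x : (EK W).Point) := rfl

lemma redTors_eq_zero_iff [DecidableEq (IsLocalRing.ResidueField A)] (hΔ : (Wred W A).Δ ≠ 0)
    (x : ETorsion (W.map (Int.castRingHom ℚ)) p) :
    redTors W p A hΔ x = 0 ↔ InE1 (W.map (Int.castRingHom ℚ)) p A x := by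
  rw [redTors_apply]
  exact red_eq_zero_iff (isRedOf_W W A) hΔ _

lemma redTors_smul [DecidableEq (IsLocalRing.ResidueField A)] (hΔ : (Wred W A).Δ ≠ 0)
    {σ : GQL} (hσ : σ ∈ A.inertiaSubgroupIn ℚ) (x : ETorsion (W.map (Int.castRingHom ℚ)) p) :
    redTors W p A hΔ (σ • x) = redTors W p A hΔ x := by
  rw [redTors_apply, redTors_apply]
  exact red_smul_of_mem_inertia hΔ hσ _

/-- An irreducible `E[p]` has a non-scalar Galois element. -/
theorem exists_nonscalar [Fact p.Prime] (hΔ : W.Δ ≠ 0) (hirr : W.ModRepIsIrreducible p) :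
    ∃ h : GQL, ¬ ∃ s : ZMod p, ∀ x : ETorsion (W.map (Int.castRingHom ℚ)) p, h • x = s • x := by
  have hp : p.Prime := Fact.out
  have hΔQ : (W.map (Int.castRingHom ℚ)).Δ ≠ 0 := by
    rw [WeierstrassCurve.map_Δ]
    simpa using hΔ
  have hfin := Fermat.Agent.Ribet.H403.finite_tors (W.map (Int.castRingHom ℚ)) hΔQ p
    hp.one_lt.le
  haveI : Module.Finite (ZMod p) (ETorsion (W.map (Int.castRingHom ℚ)) p) :=
    Module.Finite.of_finite
  have h2 := Fermat.Agent.Ribet.H403.finrank_tors (W.map (Int.castRingHom ℚ)) hΔQ p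
  by_contra hcon
  push Not at hcon
  obtain ⟨hnt, hN⟩ := hirr
  obtain ⟨x, hx⟩ := exists_ne (0 : ETorsion (W.map (Int.castRingHom ℚ)) p)
  have hstab : Affine.Point.IsGaloisStable (K := AlgebraicClosure ℚ) ℚ
      (Submodule.span (ZMod p) {x}) := by
    intro σ y hy
    obtain ⟨s, hs⟩ := hcon σ
    rw [hs y]
    exact Submodule.smul_mem _ _ hy
  rcases hN _ hstab with h | h
  · apply hx
    have : x ∈ Submodule.span (ZMod p) {x} := Submodule.mem_span_singleton_self x
    rw [h] at this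
    exact (Submodule.mem_bot _).1 this
  · have h1 : Module.finrank (ZMod p) (Submodule.span (ZMod p) {x}) = 1 :=
      finrank_span_singleton hx
    rw [h, finrank_top, h2] at h1
    omega

/-- **(LINE)** -/
theorem elocLine : ELOCLineStatement := by
  classical
  intro W p hΔ hp hp2 hgood hirr A hA hex
  haveI : Fact p.Prime := ⟨hp⟩
  obtain ⟨x₀, hx₀⟩ := hex
  have hΔκ : (Wred W A).Δ ≠ 0 := Wred_Δ_ne_zero W A hp hgood hA
  have hΔQ : (W.map (Int.castRingHom ℚ)).Δ ≠ 0 := by
    rw [WeierstrassCurve.map_Δ]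
    simpa using hΔ
  have hfin := Fermat.Agent.Ribet.H403.finite_tors (W.map (Int.castRingHom ℚ)) hΔQ p
    hp.one_lt.le
  haveI : Module.Finite (ZMod p) (ETorsion (W.map (Int.castRingHom ℚ)) p) :=
    Module.Finite.of_finite
  have h2 := Fermat.Agent.Ribet.H403.finrank_tors (W.map (Int.castRingHom ℚ)) hΔQ p
  have hns := exists_nonscalar hΔ hirr
  -- the subspace `N = E₁[p]`
  set N : Submodule (ZMod p) (ETorsion (W.map (Int.castRingHom ℚ)) p) :=
    AddSubgroup.toZModSubmodule p (redTors W p A hΔκ).ker with hNdef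
  have hmemN : ∀ x, x ∈ N ↔ InE1 (W.map (Int.castRingHom ℚ)) p A x := by
    intro x
    rw [hNdef, AddSubgroup.mem_toZModSubmodule, AddMonoidHom.mem_ker]
    exact redTors_eq_zero_iff hΔκ x
  have hmemN' : ∀ x, x ∈ N ↔ redTors W p A hΔκ x = 0 := by
    intro x
    rw [hNdef, AddSubgroup.mem_toZModSubmodule, AddMonoidHom.mem_ker]
  have htop : N ≠ ⊤ := by
    intro h
    apply hx₀
    rw [← hmemN, h]
    exact Submodule.mem_top
  -- inertia is trivial modulo `N`
  have hS1 : ∀ σ ∈ A.inertiaSubgroupIn ℚ, ∀ x : ETorsion (W.map (Int.castRingHom ℚ)) p,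
      σ • x - x ∈ N := by
    intro σ hσ x
    rw [hmemN', map_sub, redTors_smul hΔκ hσ, sub_self]
  -- `N ≠ ⊥`
  have hbot : N ≠ ⊥ := by
    intro h
    obtain ⟨σ, hσ, hne⟩ := Fermat.Agent.Ribet.H403.exists_inertia_cycloPow_ne_one p hp2 A hA
    apply hne
    have hid : galoisRepModuleEnd (S := ℚ) (K := AlgebraicClosure ℚ)
        (W.map (Int.castRingHom ℚ)) p σ = LinearMap.id := by
      apply LinearMap.ext
      intro x
      rw [galoisRepModuleEnd_apply, LinearMap.id_apply]
      have := hS1 σ hσ x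
      rw [h, Submodule.mem_bot] at this
      exact sub_eq_zero.1 this
    have hdet := Fermat.Agent.Ribet.H403.det_eq_cycloPow W p hΔ hns σ
    rw [hid, LinearMap.det_id] at hdet
    apply Units.ext
    rw [← hdet, Units.val_one]
  obtain ⟨t, htN, ht0, hgen⟩ := exists_generator_of_ne_bot_of_ne_top h2 N hbot htop
  have hnat : ∀ (c : ZMod p) (y : ETorsion (W.map (Int.castRingHom ℚ)) p),
      c • y = c.val • y := by
    intro c y
    conv_lhs => rw [← ZMod.natCast_zmod_val c]
    rw [Nat.cast_smul_eq_nsmul]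
  refine ⟨t, (hmemN t).1 htN, ?_, ?_, ?_⟩
  · intro σ hσ c hc
    have hσt : σ • t ∈ N := by
      rw [hmemN', redTors_smul hΔκ hσ]
      exact (hmemN' t).1 htN
    obtain ⟨a, ha⟩ := hgen _ hσt
    have hdet1 : LinearMap.det (galoisRepModuleEnd (S := ℚ) (K := AlgebraicClosure ℚ)
        (W.map (Int.castRingHom ℚ)) p σ) = a :=
      det_eq_of_line h2 _ N t ht0 hgen a ha (fun x => hS1 σ hσ x) x₀
        (fun h => hx₀ ((hmemN x₀).1 h))
    have hdet2 := Fermat.Agent.Ribet.H403.det_eq_of_apply_root W p hΔ hns σ c hc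
    rw [hdet1] at hdet2
    rw [ha, hdet2, Nat.cast_smul_eq_nsmul]
  · intro x σ hσ
    obtain ⟨m, hm⟩ := hgen _ (hS1 σ hσ x)
    refine ⟨m.val, ?_⟩
    rw [← hnat, ← hm]
    abel
  · intro x hx
    obtain ⟨m, hm⟩ := hgen _ ((hmemN x).2 hx)
    exact ⟨m.val, by rw [← hnat, ← hm]⟩

end Line

end Fermat.Agent.Ribet.H237
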